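/-
S55 / 14-LOC-H (helper27), part (A): successive approximation in a complete filtered commutative
group.  Pure group theory, Mathlib only.

`A` a commutative group with a decreasing filtration `F i` by subgroups which is separated and
complete (every sequence `b i ∈ F i` has a product-limit), `f g : A →* A` filtered endomorphisms with
`g ∘ f = 1` and graded exactness: `a ∈ F i`, `g a ∈ F (i+1)` ⟹ `a ≡ f b mod F (i+1)` for some
`b ∈ F i`.  Then `ker g ∩ F 0 ⊆ f (F 0)`.
-/
import Mathlib

set_option autoImplicit false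

namespace Fermat.Agent.S55.LocH27

open Finset

variable {A : Type*} [CommGroup A]

/-- **Approximation lemma.** -/
theorem exists_preimage_of_graded_exact (F : ℕ → Subgroup A) (f g : A →* A)
    (hf : ∀ i, ∀ a ∈ F i, f a ∈ F i)
    (hgf : ∀ a, g (f a) = 1)
    (hex : ∀ i, ∀ a ∈ F i, g a ∈ F (i + 1) → ∃ b ∈ F i, a / f b ∈ F (i + 1))
    (hlim : ∀ b : ℕ → A, (∀ i, b i ∈ F i) →
      ∃ B ∈ F 0, ∀ k, B / ∏ i ∈ range k, b i ∈ F k)
    (hsep : ∀ a, (∀ k, a ∈ F k) → a = 1)
    {a : A} (ha : a ∈ F 0) (hga : g a = 1) : ∃ B ∈ F 0, f B = a := by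
  classical
  -- the step function: from `x ∈ F i` with `g x = 1` produce `b ∈ F i` with `x / f b ∈ F (i+1)`
  have step : ∀ i, ∀ x : A, x ∈ F i → g x = 1 → ∃ b ∈ F i, x / f b ∈ F (i + 1) := by
    intro i x hx hgx
    exact hex i x hx (by rw [hgx]; exact one_mem _)
  choose! β hβmem hβ using step
  -- the sequence of remainders `r i ∈ F i`, `g (r i) = 1`
  let r : ℕ → A := fun k => Nat.rec a (fun i x => x / f (β i x)) k
  have hr0 : r 0 = a := rfl
  have hrs : ∀ i, r (i + 1) = r i / f (β i (r i)) := fun i => rfl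
  have hrmem : ∀ i, r i ∈ F i ∧ g (r i) = 1 := by
    intro i
    induction i with
    | zero => exact ⟨ha, hga⟩
    | succ i ih =>
      refine ⟨by rw [hrs]; exact hβ i (r i) ih.1 ih.2, ?_⟩
      rw [hrs, map_div, ih.2, hgf, div_one]
  let b : ℕ → A := fun i => β i (r i)
  have hb : ∀ i, b i ∈ F i := fun i => hβmem i (r i) (hrmem i).1 (hrmem i).2
  -- `r k = a / f (∏ i < k, b i)`
  have hrk : ∀ k, r k = a / f (∏ i ∈ range k, b i) := by
    intro k
    induction k with
    | zero => simp [hr0]
    | succ k ih =>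
      have hbk : b k = β k (r k) := rfl
      rw [hrs, prod_range_succ, map_mul, ← div_div, ← ih, hbk]
  obtain ⟨B, hB0, hB⟩ := hlim b hb
  refine ⟨B, hB0, ?_⟩
  have hone : a / f B = 1 := by
    apply hsep
    intro k
    have h1 : a / f B = r k / f (B / ∏ i ∈ range k, b i) := by
      rw [hrk k, map_div, div_div_div_cancel_right]
    rw [h1]
    exact Subgroup.div_mem _ (hrmem k).1 (hf k _ (hB k))
  exact (div_eq_one.mp hone).symm

end Fermat.Agent.S55.LocH27
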