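/-
S55 / 14-LOC-H (helper27), algebraic core: the induced lattice `M = ⊕ R·σθ` attached to a normal
basis of a finite cyclic Galois extension `L/K` and a subring `R ⊆ K`.

* `M` is stable under `Gal(L/K)`, contains the basis, and
* `(I1)`  `Tr m ∈ ϖ M  ⟹  m ∈ (σ₀ - 1) M + ϖ M`,
* `(I0)`  `σ₀ m - m ∈ ϖ M  ⟹  m ∈ Tr M + ϖ M`
  (vanishing of `Ĥ⁻¹` and `Ĥ⁰` of the induced module `M/ϖM`).
-/
import Mathlib

set_option autoImplicit false
set_option linter.unusedSectionVars false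

namespace Fermat.Agent.S55.LocH27

open Finset Module

variable {K L : Type*} [Field K] [Field L] [Algebra K L] [FiniteDimensional K L] [IsGalois K L]

/-- A normal basis datum: a basis indexed by the Galois group with `B σ = σ (B 1)`. -/
structure NormalBasisData (K L : Type*) [Field K] [Field L] [Algebra K L] where
  /-- the basis -/
  B : Basis Gal(L/K) K L
  /-- it is a normal basis -/
  apply_eq : ∀ σ : Gal(L/K), B σ = σ (B 1)

namespace NormalBasisData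

variable (N : NormalBasisData K L) (R : Subring K)

theorem map_basis (τ σ : Gal(L/K)) : τ (N.B σ) = N.B (τ * σ) := by
  rw [N.apply_eq σ, N.apply_eq (τ * σ)]
  rfl

/-- coordinates of `τ x` -/
theorem repr_map (τ : Gal(L/K)) (x : L) (ρ : Gal(L/K)) :
    N.B.repr (τ x) ρ = N.B.repr x (τ⁻¹ * ρ) := by
  classical
  have hx : τ x = ∑ ρ : Gal(L/K), N.B.repr x (τ⁻¹ * ρ) • N.B ρ := by
    conv_lhs => rw [← N.B.sum_repr x]
    rw [map_sum]
    rw [← Fintype.sum_equiv (Equiv.mulLeft τ) (fun σ => τ (N.B.repr x σ • N.B σ))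
      (fun ρ => N.B.repr x (τ⁻¹ * ρ) • N.B ρ)]
    intro σ
    simp only [Equiv.coe_mulLeft, inv_mul_cancel_left]
    rw [map_smul, N.map_basis]
  rw [hx, N.B.repr_sum_self]

/-- the lattice `M = ⊕ R · σθ` -/
def lattice : AddSubgroup L where
  carrier := {x | ∀ σ, N.B.repr x σ ∈ R}
  add_mem' {x y} hx hy σ := by
    rw [map_add, Finsupp.add_apply]
    exact R.add_mem (hx σ) (hy σ)
  zero_mem' σ := by
    rw [map_zero, Finsupp.zero_apply]
    exact R.zero_mem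
  neg_mem' {x} hx σ := by
    rw [map_neg, Finsupp.neg_apply]
    exact R.neg_mem (hx σ)

theorem mem_lattice {x : L} : x ∈ N.lattice R ↔ ∀ σ, N.B.repr x σ ∈ R := Iff.rfl

theorem map_mem_lattice (τ : Gal(L/K)) {x : L} (hx : x ∈ N.lattice R) : τ x ∈ N.lattice R := by
  intro ρ
  rw [N.repr_map]
  exact hx _

theorem smul_mem_lattice {c : K} (hc : c ∈ R) {x : L} (hx : x ∈ N.lattice R) :
    c • x ∈ N.lattice R := by
  intro σ
  rw [map_smul, Finsupp.smul_apply, smul_eq_mul]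
  exact R.mul_mem hc (hx σ)

theorem basis_mem_lattice (σ : Gal(L/K)) : N.B σ ∈ N.lattice R := by
  classical
  intro ρ
  rw [N.B.repr_self_apply]
  split_ifs
  · exact R.one_mem
  · exact R.zero_mem

theorem sum_smul_mem_lattice (c : Gal(L/K) → K) (hc : ∀ σ, c σ ∈ R) :
    ∑ σ, c σ • N.B σ ∈ N.lattice R :=
  (N.lattice R).sum_mem fun σ _ => N.smul_mem_lattice R (hc σ) (N.basis_mem_lattice R σ)

/-- the trace of an element in coordinates -/
theorem sum_map_eq (x : L) :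
    ∑ τ : Gal(L/K), τ x = (∑ σ, N.B.repr x σ) • ∑ ρ, N.B ρ := by
  classical
  conv_lhs =>
    enter [2, τ]
    rw [← N.B.sum_repr x, map_sum]
  rw [Finset.sum_comm, Finset.sum_smul]
  refine Finset.sum_congr rfl fun σ _ => ?_
  rw [Finset.smul_sum]
  rw [← Fintype.sum_equiv (Equiv.mulRight σ) (fun τ => τ (N.B.repr x σ • N.B σ))
    (fun ρ => N.B.repr x σ • N.B ρ)]
  intro τ
  rw [map_smul, N.map_basis]
  rfl

/-- coordinates of the trace: all equal to the sum of the coordinates -/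
theorem repr_sum_map (x : L) (ρ : Gal(L/K)) :
    N.B.repr (∑ τ : Gal(L/K), τ x) ρ = ∑ σ, N.B.repr x σ := by
  classical
  rw [N.sum_map_eq, map_smul, Finsupp.smul_apply, map_sum, Finsupp.coe_finsetSum, Finset.sum_apply,
    smul_eq_mul]
  simp

variable {R}

/-- multiplication by `ϖ ∈ K` in coordinates -/
theorem mem_smul_lattice_iff {ϖ : K} (hϖ : ϖ ≠ 0) {x : L} :
    (∃ y ∈ N.lattice R, x = ϖ • y) ↔ ∀ σ, ∃ r ∈ R, N.B.repr x σ = ϖ * r := by
  constructor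
  · rintro ⟨y, hy, rfl⟩ σ
    exact ⟨_, hy σ, by rw [map_smul, Finsupp.smul_apply, smul_eq_mul]⟩
  · intro h
    refine ⟨ϖ⁻¹ • x, fun σ => ?_, by rw [smul_smul, mul_inv_cancel₀ hϖ, one_smul]⟩
    obtain ⟨r, hr, hxr⟩ := h σ
    rw [map_smul, Finsupp.smul_apply, smul_eq_mul, hxr, ← mul_assoc, inv_mul_cancel₀ hϖ, one_mul]
    exact hr


section Cyclic

variable {σ₀ : Gal(L/K)} (hσ₀ : ∀ σ : Gal(L/K), σ ∈ Subgroup.zpowers σ₀)

include hσ₀ in
/-- `σθ - θ ∈ (σ₀ - 1) M` for every `σ` -/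
theorem exists_basis_sub (σ : Gal(L/K)) :
    ∃ t ∈ N.lattice R, N.B σ - N.B 1 = σ₀ t - t := by
  obtain ⟨n, rfl⟩ := Subgroup.mem_zpowers_iff.mp (hσ₀ σ)
  refine zpow_induction_left (g := σ₀)
    (P := fun σ => ∃ t ∈ N.lattice R, N.B σ - N.B 1 = σ₀ t - t) ?_ ?_ ?_ n
  · exact ⟨0, (N.lattice R).zero_mem, by simp⟩
  · intro a ih
    obtain ⟨t, ht, h⟩ := ih
    refine ⟨σ₀ t + N.B 1, (N.lattice R).add_mem (N.map_mem_lattice R σ₀ ht)
      (N.basis_mem_lattice R 1), ?_⟩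
    have h1 : N.B (σ₀ * a) = σ₀ (N.B a) := (N.map_basis σ₀ a).symm
    have h2 : N.B a = σ₀ t - t + N.B 1 := by rw [← h]; ring
    rw [h1, h2, map_add, map_sub, map_add]
    ring
  · intro a ih
    obtain ⟨t, ht, h⟩ := ih
    refine ⟨σ₀⁻¹ t - σ₀⁻¹ (N.B 1), (N.lattice R).sub_mem (N.map_mem_lattice R σ₀⁻¹ ht)
      (N.map_mem_lattice R σ₀⁻¹ (N.basis_mem_lattice R 1)), ?_⟩
    have h1 : N.B (σ₀⁻¹ * a) = σ₀⁻¹ (N.B a) := (N.map_basis σ₀⁻¹ a).symm
    have h2 : N.B a = σ₀ t - t + N.B 1 := by rw [← h]; ring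
    have h3 : ∀ z : L, σ₀ (σ₀⁻¹ z) = z := fun z => by
      rw [← AlgEquiv.mul_apply, mul_inv_cancel, AlgEquiv.one_apply]
    have h4 : ∀ z : L, σ₀⁻¹ (σ₀ z) = z := fun z => by
      rw [← AlgEquiv.mul_apply, inv_mul_cancel, AlgEquiv.one_apply]
    rw [h1, h2, map_add, map_sub, map_sub, h3, h3, h4]
    ring

include hσ₀ in
/-- **(I1)**: `Ĥ⁻¹(G, M/ϖM) = 0`. -/
theorem exists_sub_of_trace_mem {ϖ : K} {m : L} (hm : m ∈ N.lattice R)
    (htr : ∃ y ∈ N.lattice R, ∑ τ : Gal(L/K), τ m = ϖ • y) :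
    ∃ m₁ ∈ N.lattice R, ∃ m₃ ∈ N.lattice R, m = σ₀ m₁ - m₁ + ϖ • m₃ := by
  classical
  choose t ht hts using N.exists_basis_sub (R := R) hσ₀
  set c : Gal(L/K) → K := fun σ => N.B.repr m σ with hc
  have hcR : ∀ σ, c σ ∈ R := fun σ => hm σ
  obtain ⟨y, hy, hym⟩ := htr
  -- the sum of the coordinates is divisible by `ϖ`
  have hs : ∑ σ, c σ = ϖ * N.B.repr y 1 := by
    have := N.repr_sum_map m 1
    rw [hym, map_smul, Finsupp.smul_apply, smul_eq_mul] at this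
    exact this.symm
  refine ⟨∑ σ, c σ • t σ, (N.lattice R).sum_mem fun σ _ => N.smul_mem_lattice R (hcR σ) (ht σ),
    N.B.repr y 1 • N.B 1, N.smul_mem_lattice R (hy 1) (N.basis_mem_lattice R 1), ?_⟩
  have hm' : m = ∑ σ, c σ • N.B σ := (N.B.sum_repr m).symm
  have h1 : ∀ σ, c σ • N.B σ = c σ • (σ₀ (t σ) - t σ) + c σ • N.B 1 := by
    intro σ
    rw [← hts σ, ← smul_add, sub_add_cancel]
  rw [map_sum, smul_smul, ← hs, Finset.sum_smul]
  conv_lhs => rw [hm']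
  rw [← Finset.sum_sub_distrib, ← Finset.sum_add_distrib]
  refine Finset.sum_congr rfl fun σ _ => ?_
  rw [h1 σ, map_smul, smul_sub]

include hσ₀ in
/-- **(I0)**: `Ĥ⁰(G, M/ϖM) = 0`. -/
theorem exists_trace_of_sub_mem {ϖ : K} {m : L} (hm : m ∈ N.lattice R)
    (hsub : ∃ y ∈ N.lattice R, σ₀ m - m = ϖ • y) :
    ∃ m₁ ∈ N.lattice R, ∃ m₃ ∈ N.lattice R, m = ∑ τ : Gal(L/K), τ m₁ + ϖ • m₃ := by
  classical
  set c : Gal(L/K) → K := fun σ => N.B.repr m σ with hc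
  obtain ⟨y, hy, hym⟩ := hsub
  have hrel : ∀ ρ, c (σ₀⁻¹ * ρ) - c ρ = ϖ * N.B.repr y ρ := by
    intro ρ
    have := congrArg (fun z => N.B.repr z ρ) hym
    simp only [map_sub, Finsupp.sub_apply, map_smul, Finsupp.smul_apply, smul_eq_mul] at this
    rw [N.repr_map] at this
    exact this
  have hall : ∀ σ : Gal(L/K), ∃ r ∈ R, c σ - c 1 = ϖ * r := by
    intro σ
    obtain ⟨n, rfl⟩ := Subgroup.mem_zpowers_iff.mp (hσ₀ σ)
    refine zpow_induction_left (g := σ₀)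
      (P := fun σ => ∃ r ∈ R, c σ - c 1 = ϖ * r) ?_ ?_ ?_ n
    · exact ⟨0, R.zero_mem, by simp⟩
    · intro a ih
      obtain ⟨r, hr, h⟩ := ih
      refine ⟨r - N.B.repr y (σ₀ * a), R.sub_mem hr (hy _), ?_⟩
      have := hrel (σ₀ * a)
      rw [inv_mul_cancel_left] at this
      rw [mul_sub, ← this, ← h]
      ring
    · intro a ih
      obtain ⟨r, hr, h⟩ := ih
      refine ⟨N.B.repr y a + r, R.add_mem (hy _) hr, ?_⟩
      have := hrel a
      rw [mul_add, ← this, ← h]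
      ring
  choose r hr hrc using hall
  refine ⟨c 1 • N.B 1, N.smul_mem_lattice R (hm 1) (N.basis_mem_lattice R 1),
    ∑ σ, r σ • N.B σ, N.sum_smul_mem_lattice R r hr, ?_⟩
  have hm' : m = ∑ σ, c σ • N.B σ := (N.B.sum_repr m).symm
  have htr : ∑ τ : Gal(L/K), τ (c 1 • N.B 1) = ∑ σ, c 1 • N.B σ := by
    refine Finset.sum_congr rfl fun τ _ => ?_
    rw [map_smul, N.map_basis, mul_one]
  rw [htr, Finset.smul_sum, ← Finset.sum_add_distrib]
  conv_lhs => rw [hm']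
  refine Finset.sum_congr rfl fun σ _ => ?_
  rw [smul_smul, ← hrc σ, ← add_smul]
  congr 1
  ring

end Cyclic

end NormalBasisData

end Fermat.Agent.S55.LocH27
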