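/-
S55 / 14-LOC-H (helper27): the model-independent datum of a finite Galois extension `L/K` of
complete discretely valued fields with finite residue field, and its elementary consequences.
-/
import Mathlib

set_option autoImplicit false
set_option linter.unusedSectionVars false

namespace Fermat.Agent.S55.LocH27

open Finset

/-- Elementary datum: `O` = valuation ring of `L`, `ϖ` a nonzero element of `K` of positive
valuation (e.g. a uniformizer of `K`), `O` is `Gal(L/K)`-stable, `ϖ`-adically separated and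
complete, `L = O[1/ϖ]`, `O/ϖO` finite; `ord : Lˣ → ℤ` the normalized valuation. -/
structure Datum (K L : Type*) [Field K] [Field L] [Algebra K L] where
  /-- valuation ring of `L` -/
  O : Subring L
  /-- element of `K` of positive valuation -/
  ϖ : K
  ϖ_ne_zero : ϖ ≠ 0
  ϖ_mem : algebraMap K L ϖ ∈ O
  map_mem : ∀ (σ : Gal(L/K)) {x : L}, x ∈ O → σ x ∈ O
  exists_pow_mul_mem : ∀ x : L, ∃ k : ℕ, algebraMap K L ϖ ^ k * x ∈ O
  eq_zero_of_forall_dvd : ∀ x ∈ O, (∀ k : ℕ, ∃ y ∈ O, x = algebraMap K L ϖ ^ k * y) → x = 0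
  exists_limit : ∀ f : ℕ → L, (∀ k, f k ∈ O) →
    (∀ k, ∃ y ∈ O, f (k + 1) - f k = algebraMap K L ϖ ^ k * y) →
    ∃ x ∈ O, ∀ k, ∃ y ∈ O, x - f k = algebraMap K L ϖ ^ k * y
  finite_quot : ∃ T : Finset L, ∀ x ∈ O, ∃ t ∈ T, ∃ y ∈ O, x - t = algebraMap K L ϖ * y
  /-- the normalized valuation -/
  ord : Lˣ →* Multiplicative ℤ
  ord_surjective : Function.Surjective ord
  ord_eq_one_iff : ∀ u : Lˣ, ord u = 1 ↔ (u : L) ∈ O ∧ ((u⁻¹ : Lˣ) : L) ∈ O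
  ord_map : ∀ (σ : Gal(L/K)) (u : Lˣ), ord (Units.map (σ : L →* L) u) = ord u

namespace Datum

variable {K L : Type*} [Field K] [Field L] [Algebra K L] (D : Datum K L)

/-- the element `ϖ` in `L` -/
def p : L := algebraMap K L D.ϖ

theorem p_mem : D.p ∈ D.O := D.ϖ_mem

theorem p_ne_zero : D.p ≠ 0 := by
  rw [p, Ne, map_eq_zero]
  exact D.ϖ_ne_zero

theorem pow_p_mem (k : ℕ) : D.p ^ k ∈ D.O := D.O.pow_mem D.p_mem k

theorem map_p (σ : Gal(L/K)) : σ D.p = D.p := σ.commutes D.ϖ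

theorem smul_eq (x : L) : D.ϖ • x = D.p * x := Algebra.smul_def _ _

/-- `x ∈ ϖ^k O` -/
def Dvd (k : ℕ) (x : L) : Prop := ∃ y ∈ D.O, x = D.p ^ k * y

theorem Dvd.mem {k : ℕ} {x : L} (h : D.Dvd k x) : x ∈ D.O := by
  obtain ⟨y, hy, rfl⟩ := h
  exact D.O.mul_mem (D.pow_p_mem k) hy

theorem dvd_zero_iff {x : L} : D.Dvd 0 x ↔ x ∈ D.O :=
  ⟨fun h => h.mem, fun h => ⟨x, h, by rw [pow_zero, one_mul]⟩⟩

theorem Dvd.mono {k j : ℕ} (hjk : j ≤ k) {x : L} (h : D.Dvd k x) : D.Dvd j x := by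
  obtain ⟨y, hy, rfl⟩ := h
  refine ⟨D.p ^ (k - j) * y, D.O.mul_mem (D.pow_p_mem _) hy, ?_⟩
  rw [← mul_assoc, ← pow_add, Nat.add_sub_cancel' hjk]

theorem Dvd.add {k : ℕ} {x y : L} (hx : D.Dvd k x) (hy : D.Dvd k y) : D.Dvd k (x + y) := by
  obtain ⟨a, ha, rfl⟩ := hx
  obtain ⟨b, hb, rfl⟩ := hy
  exact ⟨a + b, D.O.add_mem ha hb, by ring⟩

theorem Dvd.neg {k : ℕ} {x : L} (hx : D.Dvd k x) : D.Dvd k (-x) := by
  obtain ⟨a, ha, rfl⟩ := hx
  exact ⟨-a, D.O.neg_mem ha, by ring⟩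

theorem Dvd.sub {k : ℕ} {x y : L} (hx : D.Dvd k x) (hy : D.Dvd k y) : D.Dvd k (x - y) := by
  rw [sub_eq_add_neg]
  exact hx.add D (hy.neg D)

theorem Dvd.mul_right {k : ℕ} {x : L} (hx : D.Dvd k x) {z : L} (hz : z ∈ D.O) :
    D.Dvd k (x * z) := by
  obtain ⟨a, ha, rfl⟩ := hx
  exact ⟨a * z, D.O.mul_mem ha hz, by ring⟩

theorem Dvd.mul_left {k : ℕ} {x : L} (hx : D.Dvd k x) {z : L} (hz : z ∈ D.O) :
    D.Dvd k (z * x) := by
  rw [mul_comm]
  exact hx.mul_right D hz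

theorem dvd_pow_mul (k : ℕ) {z : L} (hz : z ∈ D.O) : D.Dvd k (D.p ^ k * z) := ⟨z, hz, rfl⟩

theorem Dvd.map {k : ℕ} {x : L} (hx : D.Dvd k x) (σ : Gal(L/K)) : D.Dvd k (σ x) := by
  obtain ⟨a, ha, rfl⟩ := hx
  exact ⟨σ a, D.map_mem σ ha, by rw [map_mul, map_pow, D.map_p]⟩

theorem eq_zero_of_forall {x : L} (h : ∀ k, D.Dvd k x) : x = 0 :=
  D.eq_zero_of_forall_dvd x (h 0).mem h

/-- `ϖ` is not a unit of `O` -/
theorem one_not_dvd : ¬ D.Dvd 1 1 := by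
  rintro ⟨y, hy, h⟩
  rw [pow_one] at h
  have hall : ∀ k, D.Dvd k (1 : L) := by
    intro k
    refine ⟨y ^ k, D.O.pow_mem hy k, ?_⟩
    rw [← mul_pow, ← h, one_pow]
  exact one_ne_zero (D.eq_zero_of_forall hall)

/-- `1 + ϖ z` is a unit of `O` -/
theorem exists_inv_one_add {z : L} (hz : z ∈ D.O) : ∃ w ∈ D.O, (1 + D.p * z) * w = 1 := by
  set f : ℕ → L := fun k => ∑ j ∈ range k, (-(D.p * z)) ^ j with hf
  have hfmem : ∀ k, f k ∈ D.O := fun k =>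
    D.O.sum_mem fun j _ => D.O.pow_mem (D.O.neg_mem (D.O.mul_mem D.p_mem hz)) j
  have hstep : ∀ k, ∃ y ∈ D.O, f (k + 1) - f k = algebraMap K L D.ϖ ^ k * y := by
    intro k
    refine ⟨(-z) ^ k, D.O.pow_mem (D.O.neg_mem hz) k, ?_⟩
    rw [hf]
    simp only [sum_range_succ, add_sub_cancel_left]
    rw [← mul_pow]
    congr 1
    show -(D.p * z) = D.p * -z
    ring
  obtain ⟨x, hx, hlim⟩ := D.exists_limit f hfmem hstep
  refine ⟨x, hx, ?_⟩
  have hgeom : ∀ k, (1 + D.p * z) * f k = 1 - (-(D.p * z)) ^ k := by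
    intro k
    have := geom_sum_mul_neg (-(D.p * z)) k
    rw [hf]
    rw [mul_comm]
    convert this using 2
    ring
  have h0 : (1 + D.p * z) * x - 1 = 0 := by
    apply D.eq_zero_of_forall
    intro k
    obtain ⟨y, hy, hxy⟩ := hlim k
    have : (1 + D.p * z) * x - 1 = (1 + D.p * z) * (x - f k) - (-(D.p * z)) ^ k := by
      rw [mul_sub, hgeom]; ring
    rw [this]
    refine Dvd.sub D ?_ ?_
    · rw [hxy]
      exact (D.dvd_pow_mul k hy).mul_left D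
        (D.O.add_mem D.O.one_mem (D.O.mul_mem D.p_mem hz))
    · refine ⟨(-z) ^ k, D.O.pow_mem (D.O.neg_mem hz) k, ?_⟩
      rw [← mul_pow]
      congr 1
      ring
  exact sub_eq_zero.mp h0

/-- finite sets of representatives of `O/ϖ^j O` -/
theorem exists_reps (j : ℕ) : ∃ T : Finset L, ∀ x ∈ D.O, ∃ t ∈ T, D.Dvd j (x - t) := by
  classical
  induction j with
  | zero =>
    refine ⟨{0}, fun x hx => ⟨0, Finset.mem_singleton_self 0, ?_⟩⟩
    rw [sub_zero]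
    exact D.dvd_zero_iff.mpr hx
  | succ j ih =>
    obtain ⟨T, hT⟩ := ih
    obtain ⟨T₁, hT₁⟩ := D.finite_quot
    refine ⟨Finset.image₂ (fun t t' => t + D.p ^ j * t') T T₁, fun x hx => ?_⟩
    obtain ⟨t, ht, y, hy, hxy⟩ := hT x hx
    obtain ⟨t', ht', y', hy', hyy'⟩ := hT₁ y hy
    refine ⟨t + D.p ^ j * t', Finset.mem_image₂_of_mem ht ht', y', hy', ?_⟩
    have h1 : y = t' + D.p * y' := by
      rw [show D.p = algebraMap K L D.ϖ from rfl, ← hyy']; ring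
    have h2 : x = t + D.p ^ j * y := by rw [← hxy]; ring
    rw [h2, h1, pow_succ]
    ring

/-- the units of `O` -/
def unitGroup : Subgroup Lˣ where
  carrier := {u | (u : L) ∈ D.O ∧ ((u⁻¹ : Lˣ) : L) ∈ D.O}
  mul_mem' {u v} hu hv := by
    refine ⟨?_, ?_⟩
    · rw [Units.val_mul]; exact D.O.mul_mem hu.1 hv.1
    · rw [mul_inv, Units.val_mul]; exact D.O.mul_mem hu.2 hv.2
  one_mem' := ⟨by simp, by simp⟩
  inv_mem' {u} hu := ⟨hu.2, by rw [inv_inv]; exact hu.1⟩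

theorem mem_unitGroup {u : Lˣ} :
    u ∈ D.unitGroup ↔ (u : L) ∈ D.O ∧ ((u⁻¹ : Lˣ) : L) ∈ D.O := Iff.rfl

theorem mem_unitGroup_iff_ord {u : Lˣ} : u ∈ D.unitGroup ↔ D.ord u = 1 :=
  (D.ord_eq_one_iff u).symm

theorem map_mem_unitGroup (σ : Gal(L/K)) {u : Lˣ} (hu : u ∈ D.unitGroup) :
    Units.map (σ : L →* L) u ∈ D.unitGroup := by
  refine ⟨D.map_mem σ hu.1, ?_⟩
  rw [← map_inv]
  exact D.map_mem σ hu.2

end Datum

end Fermat.Agent.S55.LocH27
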