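/-
S55 / 14-LOC-H (helper27), part (B): the open cohomologically trivial subgroup
`V = 1 + ϖ^i M` of the unit group, `M = ⊕ O_K · σθ` the lattice of an integral normal basis.
-/
import Mathlib
import Fermat.Agent.S55.LocH27.Approx
import Fermat.Agent.S55.LocH27.Core
import Fermat.Agent.S55.LocH27.Datum

set_option autoImplicit false
set_option linter.unusedSectionVars false

namespace Fermat.Agent.S55.LocH27

open Finset Module

variable {K L : Type*} [Field K] [Field L] [Algebra K L] [FiniteDimensional K L] [IsGalois K L]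
variable (D : Datum K L)

namespace Datum

/-- the valuation ring of `K` -/
def OK : Subring K := D.O.comap (algebraMap K L)

theorem mem_OK {c : K} : c ∈ D.OK ↔ algebraMap K L c ∈ D.O := Iff.rfl

theorem ϖ_mem_OK : D.ϖ ∈ D.OK := D.ϖ_mem

theorem sum_map_mem {x : L} (hx : x ∈ D.O) : ∑ σ : Gal(L/K), σ x ∈ D.O :=
  D.O.sum_mem fun σ _ => D.map_mem σ hx

theorem trace_mem_OK {x : L} (hx : x ∈ D.O) : Algebra.trace K L x ∈ D.OK := by
  rw [mem_OK, trace_eq_sum_automorphisms]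
  exact D.sum_map_mem hx

theorem pow_mul_mem_of_le {k j : ℕ} (hkj : k ≤ j) {x : L} (hx : D.p ^ k * x ∈ D.O) :
    D.p ^ j * x ∈ D.O := by
  have : D.p ^ j * x = D.p ^ (j - k) * (D.p ^ k * x) := by
    rw [← mul_assoc, ← pow_add, Nat.sub_add_cancel hkj]
  rw [this]
  exact D.O.mul_mem (D.pow_p_mem _) hx

/-- An integral normal basis together with a conductor exponent. -/
structure LatticeData where
  /-- the normal basis -/
  N : NormalBasisData K L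
  basis_mem : ∀ σ, N.B σ ∈ D.O
  /-- conductor exponent -/
  c : ℕ
  pow_mul_mem : ∀ x ∈ D.O, D.p ^ c * x ∈ N.lattice D.OK

theorem nonempty_latticeData : Nonempty D.LatticeData := by
  classical
  -- integral normal basis
  set nb := IsGalois.normalBasis K L with hnb
  obtain ⟨k₀, hk₀⟩ := D.exists_pow_mul_mem (nb 1)
  have hunit : ∀ _ : Gal(L/K), IsUnit (D.ϖ ^ k₀) := fun _ =>
    (isUnit_iff_ne_zero.mpr (pow_ne_zero _ D.ϖ_ne_zero))
  set B' : Basis Gal(L/K) K L := nb.isUnitSMul hunit with hB'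
  have hB'apply : ∀ σ : Gal(L/K), B' σ = σ (D.p ^ k₀ * nb 1) := by
    intro σ
    rw [hB', Basis.isUnitSMul_apply, hnb, IsGalois.normalBasis_apply, map_mul, map_pow, D.map_p,
      Algebra.smul_def, map_pow]
    rfl
  have hB'one : B' 1 = D.p ^ k₀ * nb 1 := by rw [hB'apply]; rfl
  let N : NormalBasisData K L := ⟨B', fun σ => by rw [hB'apply, hB'one]⟩
  have hbasis : ∀ σ, N.B σ ∈ D.O := fun σ => by
    show B' σ ∈ D.O
    rw [hB'apply]
    exact D.map_mem σ hk₀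
  -- conductor via the trace-dual basis
  have hnd := traceForm_nondegenerate K L
  have hsymm : (Algebra.traceForm K L).IsSymm := Algebra.traceForm_isSymm K
  set d := (Algebra.traceForm K L).dualBasis hnd B' with hd
  have hdd : (Algebra.traceForm K L).dualBasis hnd d = B' :=
    LinearMap.BilinForm.dualBasis_dualBasis hnd hsymm B'
  have hrepr : ∀ x σ, B'.repr x σ = Algebra.trace K L (x * d σ) := by
    intro x σ
    conv_lhs => rw [← hdd]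
    rw [LinearMap.BilinForm.dualBasis_repr_apply, Algebra.traceForm_apply]
  choose k hk using fun σ => D.exists_pow_mul_mem (d σ)
  refine ⟨⟨N, hbasis, Finset.univ.sup k, fun x hx σ => ?_⟩⟩
  show B'.repr (D.p ^ (Finset.univ.sup k) * x) σ ∈ D.OK
  rw [hrepr]
  apply D.trace_mem_OK
  have : D.p ^ (Finset.univ.sup k) * x * d σ = x * (D.p ^ (Finset.univ.sup k) * d σ) := by ring
  rw [this]
  exact D.O.mul_mem hx (D.pow_mul_mem_of_le (Finset.le_sup (Finset.mem_univ σ)) (hk σ))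


/-- expansion of a product `∏ (1 + t y_σ)` up to second order -/
theorem exists_prod_one_add {ι : Type*} (s : Finset ι) {t : L} (ht : t ∈ D.O) (y : ι → L)
    (hy : ∀ i, y i ∈ D.O) :
    ∃ z ∈ D.O, ∏ i ∈ s, (1 + t * y i) = 1 + t * ∑ i ∈ s, y i + t ^ 2 * z := by
  classical
  induction s using Finset.induction_on with
  | empty => exact ⟨0, D.O.zero_mem, by simp⟩
  | insert a s ha ih =>
    obtain ⟨z, hz, h⟩ := ih
    refine ⟨z + (∑ i ∈ s, y i) * y a + t * z * y a, ?_, ?_⟩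
    · exact D.O.add_mem (D.O.add_mem hz (D.O.mul_mem (D.O.sum_mem fun i _ => hy i) (hy a)))
        (D.O.mul_mem (D.O.mul_mem ht hz) (hy a))
    · rw [Finset.prod_insert ha, Finset.sum_insert ha, h]
      ring

namespace LatticeData

variable {D} (Λ : D.LatticeData)

/-- the lattice `M` -/
def M : AddSubgroup L := Λ.N.lattice D.OK

theorem M_le {x : L} (hx : x ∈ Λ.M) : x ∈ D.O := by
  rw [← Λ.N.B.sum_repr x]
  refine D.O.sum_mem fun σ _ => ?_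
  rw [Algebra.smul_def]
  exact D.O.mul_mem (hx σ) (Λ.basis_mem σ)

theorem map_mem_M (σ : Gal(L/K)) {x : L} (hx : x ∈ Λ.M) : σ x ∈ Λ.M :=
  Λ.N.map_mem_lattice D.OK σ hx

theorem p_mul_mem_M {x : L} (hx : x ∈ Λ.M) : D.p * x ∈ Λ.M := by
  rw [← D.smul_eq]
  exact Λ.N.smul_mem_lattice D.OK D.ϖ_mem_OK hx

theorem pow_mul_mem_M {i : ℕ} (hi : Λ.c ≤ i) {z : L} (hz : z ∈ D.O) : D.p ^ i * z ∈ Λ.M := by
  have : D.p ^ i * z = D.p ^ Λ.c * (D.p ^ (i - Λ.c) * z) := by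
    rw [← mul_assoc, ← pow_add, Nat.add_sub_cancel' hi]
  rw [this]
  exact Λ.pow_mul_mem _ (D.O.mul_mem (D.pow_p_mem _) hz)

/-- shape lemma: second order terms are absorbed -/
theorem shape {i : ℕ} (hi : Λ.c + 1 ≤ i) (a : L) {z : L} (hz : z ∈ D.O) :
    ∃ m ∈ Λ.M, 1 + D.p ^ i * a + (D.p ^ i) ^ 2 * z = 1 + D.p ^ i * (a + D.p * m) := by
  refine ⟨D.p ^ (i - 1) * z, Λ.pow_mul_mem_M (by omega) hz, ?_⟩
  have h1 : D.p ^ i = D.p * D.p ^ (i - 1) := by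
    rw [← pow_succ', Nat.sub_add_cancel (by omega)]
  have h2 : (D.p ^ i) ^ 2 = D.p ^ i * (D.p * D.p ^ (i - 1)) := by rw [← h1, sq]
  rw [h2]
  ring

/-- `1 + ϖ^i m` is a unit of `O` -/
theorem exists_unit {i : ℕ} (hi : 1 ≤ i) {m : L} (hm : m ∈ D.O) :
    ∃ u : Lˣ, u ∈ D.unitGroup ∧ (u : L) = 1 + D.p ^ i * m := by
  have h1 : D.p ^ i * m = D.p * (D.p ^ (i - 1) * m) := by
    rw [← mul_assoc, ← pow_succ', Nat.sub_add_cancel hi]
  obtain ⟨w, hw, hw1⟩ := D.exists_inv_one_add (D.O.mul_mem (D.pow_p_mem (i - 1)) hm)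
  rw [← h1] at hw1
  refine ⟨⟨1 + D.p ^ i * m, w, hw1, by rw [mul_comm]; exact hw1⟩, ⟨?_, hw⟩, rfl⟩
  exact D.O.add_mem D.O.one_mem (D.O.mul_mem (D.pow_p_mem i) hm)

/-- the filtration step `1 + ϖ^i M` inside the unit group (a subgroup for `c ≤ i`) -/
def filSet (i : ℕ) : Set Lˣ :=
  {u | u ∈ D.unitGroup ∧ ∃ m ∈ Λ.M, (u : L) = 1 + D.p ^ i * m}

theorem one_mem_filSet (i : ℕ) : (1 : Lˣ) ∈ Λ.filSet i :=
  ⟨D.unitGroup.one_mem, 0, Λ.M.zero_mem, by simp⟩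

theorem mul_mem_filSet {i : ℕ} (hi : Λ.c ≤ i) {u v : Lˣ} (hu : u ∈ Λ.filSet i)
    (hv : v ∈ Λ.filSet i) : u * v ∈ Λ.filSet i := by
  obtain ⟨hu1, m, hm, hum⟩ := hu
  obtain ⟨hv1, n, hn, hvn⟩ := hv
  refine ⟨D.unitGroup.mul_mem hu1 hv1, m + n + D.p ^ i * (m * n),
    Λ.M.add_mem (Λ.M.add_mem hm hn) (Λ.pow_mul_mem_M hi (D.O.mul_mem (Λ.M_le hm) (Λ.M_le hn))), ?_⟩
  rw [Units.val_mul, hum, hvn]
  ring

theorem inv_mem_filSet {i : ℕ} (hi : Λ.c ≤ i) {u : Lˣ} (hu : u ∈ Λ.filSet i) :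
    u⁻¹ ∈ Λ.filSet i := by
  obtain ⟨hu1, m, hm, hum⟩ := hu
  refine ⟨D.unitGroup.inv_mem hu1, -m + D.p ^ i * (m * m * (u⁻¹ : Lˣ)),
    Λ.M.add_mem (Λ.M.neg_mem hm) (Λ.pow_mul_mem_M hi
      (D.O.mul_mem (D.O.mul_mem (Λ.M_le hm) (Λ.M_le hm)) hu1.2)), ?_⟩
  have h1 : (u : L) * ((u⁻¹ : Lˣ) : L) = 1 := by rw [← Units.val_mul, mul_inv_cancel, Units.val_one]
  have hu0 : (u : L) ≠ 0 := u.ne_zero
  apply mul_left_cancel₀ hu0
  rw [h1, hum]
  have h2 : (1 + D.p ^ i * m) * ((u⁻¹ : Lˣ) : L) = 1 := by rw [← hum]; exact h1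
  have h4 : (1 + D.p ^ i * m) * (1 + D.p ^ i * (-m + D.p ^ i * (m * m * ((u⁻¹ : Lˣ) : L))))
      = (1 + D.p ^ i * m) * (1 - D.p ^ i * m)
        + (D.p ^ i * m) ^ 2 * ((1 + D.p ^ i * m) * ((u⁻¹ : Lˣ) : L)) := by ring
  rw [h4, h2]
  ring


theorem filSet_succ_subset (i : ℕ) : Λ.filSet (i + 1) ⊆ Λ.filSet i := by
  rintro u ⟨hu, m, hm, hum⟩
  exact ⟨hu, D.p * m, Λ.p_mul_mem_M hm, by rw [hum, pow_succ]; ring⟩

theorem map_mem_filSet (σ : Gal(L/K)) {i : ℕ} {u : Lˣ} (hu : u ∈ Λ.filSet i) :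
    Units.map (σ : L →* L) u ∈ Λ.filSet i := by
  obtain ⟨hu1, m, hm, hum⟩ := hu
  refine ⟨D.map_mem_unitGroup σ hu1, σ m, Λ.map_mem_M σ hm, ?_⟩
  show σ (u : L) = _
  rw [hum, map_add, map_one, map_mul, map_pow, D.map_p]

/-- **(G3)** quotient of two elements of `1 + ϖ^i M` -/
theorem div_expand {i : ℕ} (hi : Λ.c + 1 ≤ i) {u t : Lˣ} (ht : t ∈ D.unitGroup) {a b : L}
    (ha : a ∈ Λ.M) (hb : b ∈ Λ.M) (hua : (u : L) = 1 + D.p ^ i * a)
    (htb : (t : L) = 1 + D.p ^ i * b) :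
    ∃ m ∈ Λ.M, ((u / t : Lˣ) : L) = 1 + D.p ^ i * (a - b + D.p * m) := by
  set w : L := ((t⁻¹ : Lˣ) : L) with hw
  have hwO : w ∈ D.O := ht.2
  have h1 : (1 + D.p ^ i * b) * w = 1 := by
    rw [← htb, hw, ← Units.val_mul, mul_inv_cancel, Units.val_one]
  obtain ⟨m, hm, hshape⟩ := Λ.shape hi (a - b) (z := -((a - b) * b * w))
    (D.O.neg_mem (D.O.mul_mem (D.O.mul_mem (D.O.sub_mem (Λ.M_le ha) (Λ.M_le hb)) (Λ.M_le hb)) hwO))
  refine ⟨m, hm, ?_⟩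
  rw [← hshape, div_eq_mul_inv, Units.val_mul, hua, ← hw]
  have h2 : (1 + D.p ^ i * a) * w
      = (1 + D.p ^ i * (a - b)) * ((1 + D.p ^ i * b) * w)
        - (D.p ^ i) ^ 2 * ((a - b) * b * w) := by ring
  rw [h2, h1]
  ring

/-- the norm as an endomorphism of `Lˣ` -/
noncomputable def normHom : Lˣ →* Lˣ := ∏ σ : Gal(L/K), Units.map (σ : L →* L)

/-- `u ↦ σ₀ u / u` -/
def subHom (σ₀ : Gal(L/K)) : Lˣ →* Lˣ := Units.map (σ₀ : L →* L) / MonoidHom.id Lˣ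

theorem coe_normHom (u : Lˣ) : ((normHom (K := K) u : Lˣ) : L) = ∏ σ : Gal(L/K), σ (u : L) := by
  rw [normHom, MonoidHom.finsetProd_apply, Units.coe_prod]
  rfl

theorem subHom_apply (σ₀ : Gal(L/K)) (u : Lˣ) :
    subHom σ₀ u = Units.map (σ₀ : L →* L) u / u := rfl

theorem map_normHom (τ : Gal(L/K)) (u : Lˣ) :
    Units.map (τ : L →* L) (normHom (K := K) u) = normHom (K := K) u := by
  apply Units.ext
  show τ ((normHom (K := K) u : Lˣ) : L) = _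
  rw [coe_normHom, map_prod]
  exact Fintype.prod_equiv (Equiv.mulLeft τ) _ _ fun σ => rfl

theorem subHom_normHom (σ₀ : Gal(L/K)) (u : Lˣ) : subHom σ₀ (normHom (K := K) u) = 1 := by
  rw [subHom_apply, map_normHom, div_self']

theorem normHom_subHom (σ₀ : Gal(L/K)) (u : Lˣ) : normHom (K := K) (subHom σ₀ u) = 1 := by
  rw [subHom_apply, map_div, div_eq_one]
  apply Units.ext
  rw [coe_normHom, coe_normHom]
  exact Fintype.prod_equiv (Equiv.mulRight σ₀) _ _ fun σ => rfl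

theorem normHom_mem_unitGroup {u : Lˣ} (hu : u ∈ D.unitGroup) :
    normHom (K := K) u ∈ D.unitGroup := by
  rw [normHom, MonoidHom.finsetProd_apply]
  exact D.unitGroup.prod_mem fun σ _ => D.map_mem_unitGroup σ hu

theorem subHom_mem_unitGroup (σ₀ : Gal(L/K)) {u : Lˣ} (hu : u ∈ D.unitGroup) :
    subHom σ₀ u ∈ D.unitGroup :=
  D.unitGroup.div_mem (D.map_mem_unitGroup σ₀ hu) hu

/-- **(G1)** the norm of an element of `1 + ϖ^i M` -/
theorem norm_expand {i : ℕ} (hi : Λ.c + 1 ≤ i) {u : Lˣ} {a : L} (ha : a ∈ Λ.M)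
    (hua : (u : L) = 1 + D.p ^ i * a) :
    ∃ m ∈ Λ.M, ((normHom (K := K) u : Lˣ) : L)
      = 1 + D.p ^ i * (∑ σ : Gal(L/K), σ a + D.p * m) := by
  obtain ⟨z, hz, hprod⟩ := D.exists_prod_one_add (Finset.univ : Finset Gal(L/K))
    (D.pow_p_mem i) (fun σ => σ a) (fun σ => D.map_mem σ (Λ.M_le ha))
  obtain ⟨m, hm, hshape⟩ := Λ.shape hi (∑ σ : Gal(L/K), σ a) hz
  refine ⟨m, hm, ?_⟩
  rw [← hshape, ← hprod, coe_normHom]
  refine Finset.prod_congr rfl fun σ _ => ?_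
  rw [hua, map_add, map_one, map_mul, map_pow, D.map_p]

/-- **(G2)** `σ₀ u / u` for an element of `1 + ϖ^i M` -/
theorem sub_expand (σ₀ : Gal(L/K)) {i : ℕ} (hi : Λ.c + 1 ≤ i) {u : Lˣ} (hu : u ∈ D.unitGroup)
    {a : L} (ha : a ∈ Λ.M) (hua : (u : L) = 1 + D.p ^ i * a) :
    ∃ m ∈ Λ.M, ((subHom σ₀ u : Lˣ) : L) = 1 + D.p ^ i * (σ₀ a - a + D.p * m) := by
  refine Λ.div_expand hi hu (Λ.map_mem_M σ₀ ha) ha ?_ hua
  show σ₀ (u : L) = _
  rw [hua, map_add, map_one, map_mul, map_pow, D.map_p]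

theorem cancel_pow {i : ℕ} {x y : L} (h : 1 + D.p ^ i * x = 1 + D.p ^ i * y) : x = y :=
  mul_left_cancel₀ (pow_ne_zero i D.p_ne_zero) (add_left_cancel h)

end LatticeData

end Datum

end Fermat.Agent.S55.LocH27
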